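import Mathlib
import Fermat.Agent.S41.Spec.PD

/-!
# Row S41, block PD, leaf TORS (helper285)

Every element of finite order of `SL(2, ℤ)` is conjugate to one of
`± 1, ± S, ± S T, ± (S T)²`.

Proof.  `g ^ n = 1` forces `|tr g| ≤ 2` (the traces `τ_k = tr (g ^ k)` satisfy
`τ_{k+2} = t τ_{k+1} - τ_k` and grow strictly when `|t| ≥ 3`); `|t| = 2` forces `g = ± 1`
(`g ^ n = n g - (n - 1)`); for `|t| ≤ 1` a descent on the lower left entry (conjugation by a power
of `T`, then by `S`) ends at `|b| = |c| = 1`, where a direct inspection concludes.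
-/

set_option autoImplicit false

namespace Fermat.Agent.S41.H285

open Matrix Matrix.SpecialLinearGroup ModularGroup
open scoped MatrixGroups

/-- Cayley–Hamilton for `2 × 2` matrices of determinant one. -/
theorem sq_eq_h285 (M : Matrix (Fin 2) (Fin 2) ℤ) (hM : M.det = 1) :
    M * M = M.trace • M - 1 := by
  rw [Matrix.det_fin_two] at hM
  ext i j
  fin_cases i <;> fin_cases j <;>
    simp only [Matrix.mul_apply, Fin.sum_univ_two, Matrix.trace_fin_two, Matrix.sub_apply,
      Matrix.smul_apply, smul_eq_mul, Matrix.one_apply_eq, Fin.zero_eta, Fin.mk_one,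
      Fin.isValue, ne_eq, not_false_eq_true, Matrix.one_apply_ne, zero_ne_one, one_ne_zero,
      sub_zero] <;>
    nlinarith [hM]

theorem pow_succ_succ_h285 (M : Matrix (Fin 2) (Fin 2) ℤ) (hM : M.det = 1) (k : ℕ) :
    M ^ (k + 2) = M.trace • M ^ (k + 1) - M ^ k := by
  have h : M ^ (k + 2) = M ^ k * (M * M) := by
    rw [pow_add, pow_two]
  rw [h, sq_eq_h285 M hM, mul_sub, mul_one, Matrix.mul_smul, ← pow_succ]

theorem trace_pow_succ_succ_h285 (M : Matrix (Fin 2) (Fin 2) ℤ) (hM : M.det = 1) (k : ℕ) :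
    (M ^ (k + 2)).trace = M.trace * (M ^ (k + 1)).trace - (M ^ k).trace := by
  rw [pow_succ_succ_h285 M hM k, Matrix.trace_sub, Matrix.trace_smul, smul_eq_mul]

/-- If `|tr M| ≥ 3` the traces of the powers grow strictly in absolute value. -/
theorem abs_trace_pow_growth_h285 (M : Matrix (Fin 2) (Fin 2) ℤ) (hM : M.det = 1)
    (ht : 3 ≤ |M.trace|) (k : ℕ) :
    |(M ^ k).trace| + 1 ≤ |(M ^ (k + 1)).trace| ∧ 2 ≤ |(M ^ k).trace| := by
  induction k with
  | zero =>
    simp only [pow_zero, zero_add, pow_one]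
    have h1 : (1 : Matrix (Fin 2) (Fin 2) ℤ).trace = 2 := by
      simp
    rw [h1]
    constructor
    · have : |(2 : ℤ)| = 2 := by norm_num
      omega
    · norm_num
  | succ k ih =>
    obtain ⟨ih1, ih2⟩ := ih
    refine ⟨?_, by omega⟩
    rw [trace_pow_succ_succ_h285 M hM k]
    set x := (M ^ (k + 1)).trace with hx
    set y := (M ^ k).trace with hy
    have h1 : |M.trace * x| = |M.trace| * |x| := abs_mul _ _
    have h2 : |M.trace * x| - |y| ≤ |M.trace * x - y| := abs_sub_abs_le_abs_sub _ _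
    have h3 : 3 * |x| ≤ |M.trace| * |x| := by
      have := abs_nonneg x
      nlinarith
    omega

theorem abs_trace_le_two_h285 (g : SL(2, ℤ)) (hg : IsOfFinOrder g) :
    |(g : Matrix (Fin 2) (Fin 2) ℤ).trace| ≤ 2 := by
  by_contra hcon
  rw [not_le] at hcon
  obtain ⟨n, hn, hgn⟩ := isOfFinOrder_iff_pow_eq_one.mp hg
  have hM : (g : Matrix (Fin 2) (Fin 2) ℤ).det = 1 := g.det_coe
  have hgrow : ∀ k : ℕ, (k : ℤ) + 2 ≤ |((g : Matrix (Fin 2) (Fin 2) ℤ) ^ k).trace| := by
    intro k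
    induction k with
    | zero =>
      have := (abs_trace_pow_growth_h285 _ hM (by omega) 0).2
      simp
    | succ k ih =>
      have := (abs_trace_pow_growth_h285 _ hM (by omega) k).1
      push_cast
      omega
  have h1 : ((g : Matrix (Fin 2) (Fin 2) ℤ) ^ n) = 1 := by
    have := congrArg (fun x : SL(2, ℤ) => (x : Matrix (Fin 2) (Fin 2) ℤ)) hgn
    simpa using this
  have h2 := hgrow n
  rw [h1] at h2
  have h3 : (1 : Matrix (Fin 2) (Fin 2) ℤ).trace = 2 := by
    simp
  rw [h3] at h2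
  have : |(2 : ℤ)| = 2 := by norm_num
  omega

/-- A unipotent integral matrix of finite order is trivial. -/
theorem eq_one_of_trace_two_h285 (M : Matrix (Fin 2) (Fin 2) ℤ) (hM : M.det = 1)
    (ht : M.trace = 2) (n : ℕ) (hn : 0 < n) (hpow : M ^ n = 1) : M = 1 := by
  have hsq := sq_eq_h285 M hM
  rw [ht] at hsq
  have hN : (M - 1) * (M - 1) = 0 := by
    rw [sub_mul, mul_sub, mul_one, one_mul, hsq]
    module
  have hpow' : ∀ k : ℕ, M ^ k = 1 + (k : ℤ) • (M - 1) := by
    intro k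
    induction k with
    | zero => simp
    | succ k ih =>
      have hNM : (M - 1) * M = M - 1 := by
        have h1 : (M - 1) * M = (M - 1) * (M - 1) + (M - 1) := by
          rw [mul_sub, mul_one]; abel
        rw [h1, hN, zero_add]
      rw [pow_succ, ih, add_mul, one_mul, smul_mul_assoc, hNM]
      push_cast
      module
  have h := hpow' n
  rw [hpow] at h
  have h0 : (n : ℤ) • (M - 1) = 0 := by
    have := h.symm
    simpa using this
  have hn' : (n : ℤ) ≠ 0 := by exact_mod_cast hn.ne'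
  have hz : M - 1 = 0 := by
    ext i j
    have := congrFun (congrFun h0 i) j
    simp only [Matrix.smul_apply, smul_eq_mul, Matrix.zero_apply, mul_eq_zero] at this
    rcases this with h | h
    · exact absurd h hn'
    · simpa using h
  exact sub_eq_zero.mp hz

theorem eq_one_of_trace_two_sl_h285 (g : SL(2, ℤ)) (hg : IsOfFinOrder g)
    (ht : (g : Matrix (Fin 2) (Fin 2) ℤ).trace = 2) : g = 1 := by
  obtain ⟨n, hn, hgn⟩ := isOfFinOrder_iff_pow_eq_one.mp hg
  have h1 : ((g : Matrix (Fin 2) (Fin 2) ℤ) ^ n) = 1 := by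
    have := congrArg (fun x : SL(2, ℤ) => (x : Matrix (Fin 2) (Fin 2) ℤ)) hgn
    simpa using this
  have := eq_one_of_trace_two_h285 _ g.det_coe ht n hn h1
  apply Subtype.ext
  simpa using this

theorem eq_neg_one_of_trace_neg_two_sl_h285 (g : SL(2, ℤ)) (hg : IsOfFinOrder g)
    (ht : (g : Matrix (Fin 2) (Fin 2) ℤ).trace = -2) : g = -1 := by
  obtain ⟨n, hn, hgn⟩ := isOfFinOrder_iff_pow_eq_one.mp hg
  have hfin : IsOfFinOrder (-g) := by
    refine isOfFinOrder_iff_pow_eq_one.mpr ⟨2 * n, by omega, ?_⟩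
    rw [Even.neg_pow (even_two_mul n), pow_mul', hgn, one_pow]
  have htr : ((-g : SL(2, ℤ)) : Matrix (Fin 2) (Fin 2) ℤ).trace = 2 := by
    rw [Matrix.SpecialLinearGroup.coe_neg, Matrix.trace_neg, ht]
    norm_num
  have := eq_one_of_trace_two_sl_h285 (-g) hfin htr
  rw [← this, neg_neg]

/-- Nearest multiple. -/
theorem exists_near_h285 (e c : ℤ) (hc : c ≠ 0) : ∃ n : ℤ, |e - 2 * n * c| ≤ |c| := by
  have hpos : 0 < 2 * |c| := by
    have := abs_pos.mpr hc
    omega
  set q := (e + |c|) / (2 * |c|) with hq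
  have h1 := Int.emod_add_mul_ediv (e + |c|) (2 * |c|)
  have h2 := Int.emod_nonneg (e + |c|) hpos.ne'
  have h3 := Int.emod_lt_of_pos (e + |c|) hpos
  refine ⟨q * Int.sign c, ?_⟩
  have h4 : 2 * (q * Int.sign c) * c = 2 * |c| * q := by
    have : Int.sign c * c = |c| := Int.sign_mul_self_eq_abs c
    calc 2 * (q * Int.sign c) * c = 2 * q * (Int.sign c * c) := by ring
      _ = 2 * |c| * q := by rw [this]; ring
  rw [h4, abs_le]
  rw [← hq] at h1
  constructor <;> linarith

theorem conjS_entries_h285 (g : SL(2, ℤ)) :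
    (S * g * S⁻¹) 0 0 = g 1 1 ∧ (S * g * S⁻¹) 0 1 = - g 1 0 ∧
    (S * g * S⁻¹) 1 0 = - g 0 1 ∧ (S * g * S⁻¹) 1 1 = g 0 0 := by
  refine ⟨?_, ?_, ?_, ?_⟩ <;>
  simp [Matrix.SpecialLinearGroup.coe_mul, Matrix.SpecialLinearGroup.coe_inv, coe_S,
    Matrix.mul_apply, Fin.sum_univ_two, Matrix.adjugate_fin_two, Matrix.vecMul, dotProduct]

theorem conjT_entries_h285 (g : SL(2, ℤ)) (n : ℤ) :
    (T ^ n * g * (T ^ n)⁻¹) 0 0 = g 0 0 + n * g 1 0 ∧
    (T ^ n * g * (T ^ n)⁻¹) 0 1 = g 0 1 + n * (g 1 1 - g 0 0) - n * n * g 1 0 ∧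
    (T ^ n * g * (T ^ n)⁻¹) 1 0 = g 1 0 ∧
    (T ^ n * g * (T ^ n)⁻¹) 1 1 = g 1 1 - n * g 1 0 := by
  refine ⟨?_, ?_, ?_, ?_⟩ <;>
  simp [Matrix.SpecialLinearGroup.coe_mul, Matrix.SpecialLinearGroup.coe_inv, coe_T_zpow,
    Matrix.mul_apply, Fin.sum_univ_two, Matrix.adjugate_fin_two, Matrix.vecMul, dotProduct] <;> ring

/-- The list of representatives. -/
def InList_h285 (g : SL(2, ℤ)) : Prop :=
  g = 1 ∨ g = -1 ∨ g = S ∨ g = -S ∨ g = S * T ∨ g = -(S * T) ∨ g = (S * T) ^ 2 ∨
    g = -(S * T) ^ 2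

theorem eq_of_entries_h285 (g X : SL(2, ℤ)) (a b c d : ℤ) (ha : g 0 0 = a) (hb : g 0 1 = b)
    (hc : g 1 0 = c) (hd : g 1 1 = d)
    (hX : X 0 0 = a ∧ X 0 1 = b ∧ X 1 0 = c ∧ X 1 1 = d) : g = X := by
  obtain ⟨h1, h2, h3, h4⟩ := hX
  ext i j
  fin_cases i <;> fin_cases j
  · exact ha.trans h1.symm
  · exact hb.trans h2.symm
  · exact hc.trans h3.symm
  · exact hd.trans h4.symm

theorem det_entries_h285 (g : SL(2, ℤ)) : g 0 0 * g 1 1 - g 0 1 * g 1 0 = 1 := by
  have := g.det_coe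
  rwa [Matrix.det_fin_two] at this

theorem trace_entries_h285 (g : SL(2, ℤ)) :
    (g : Matrix (Fin 2) (Fin 2) ℤ).trace = g 0 0 + g 1 1 := Matrix.trace_fin_two _

/-- The end of the descent: `b c = -1` and `a d = 0`. -/
theorem terminal_h285 (g : SL(2, ℤ)) (hbc : g 0 1 * g 1 0 = -1)
    (had : (g 0 0 = 0 ∧ |g 1 1| ≤ 1) ∨ (g 1 1 = 0 ∧ |g 0 0| ≤ 1)) :
    InList_h285 g ∨ InList_h285 (S * g * S⁻¹) := by
  obtain ⟨c00, c01, c10, c11⟩ := conjS_entries_h285 g
  have hbc' := Int.mul_eq_neg_one_iff_eq_one_or_neg_one.mp hbc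
  rcases hbc' with ⟨hb, hc⟩ | ⟨hb, hc⟩
  · -- b = 1, c = -1
    rcases had with ⟨ha, hd⟩ | ⟨hd, ha⟩
    · rw [abs_le] at hd
      obtain ⟨hd1, hd2⟩ := hd
      have hd' : g 1 1 = -1 ∨ g 1 1 = 0 ∨ g 1 1 = 1 := by omega
      rcases hd' with hd | hd | hd
      · -- (0,1,-1,-1) = -(S T)
        left
        right; right; right; right; right; left
        exact eq_of_entries_h285 g _ 0 1 (-1) (-1) ha hb hc hd (by decide)
      · -- (0,1,-1,0) = -S
        left
        right; right; right; left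
        exact eq_of_entries_h285 g _ 0 1 (-1) 0 ha hb hc hd (by decide)
      · -- (0,1,-1,1): conj = (1,1,-1,0) = -(ST)^2
        right
        right; right; right; right; right; right; right
        exact eq_of_entries_h285 _ _ 1 1 (-1) 0 (by rw [c00, hd]) (by rw [c01, hc]; rfl)
          (by rw [c10, hb]) (by rw [c11, ha]) (by decide)
    · rw [abs_le] at ha
      obtain ⟨ha1, ha2⟩ := ha
      have ha' : g 0 0 = -1 ∨ g 0 0 = 0 ∨ g 0 0 = 1 := by omega
      rcases ha' with ha | ha | ha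
      · -- (-1,1,-1,0): conj = (0,1,-1,-1) = -(S T)
        right
        right; right; right; right; right; left
        exact eq_of_entries_h285 _ _ 0 1 (-1) (-1) (by rw [c00, hd]) (by rw [c01, hc]; rfl)
          (by rw [c10, hb]) (by rw [c11, ha]) (by decide)
      · left
        right; right; right; left
        exact eq_of_entries_h285 g _ 0 1 (-1) 0 ha hb hc hd (by decide)
      · -- (1,1,-1,0) = -(ST)^2
        left
        right; right; right; right; right; right; right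
        exact eq_of_entries_h285 g _ 1 1 (-1) 0 ha hb hc hd (by decide)
  · -- b = -1, c = 1
    rcases had with ⟨ha, hd⟩ | ⟨hd, ha⟩
    · rw [abs_le] at hd
      obtain ⟨hd1, hd2⟩ := hd
      have hd' : g 1 1 = -1 ∨ g 1 1 = 0 ∨ g 1 1 = 1 := by omega
      rcases hd' with hd | hd | hd
      · -- (0,-1,1,-1): conj = (-1,-1,1,0) = (ST)^2
        right
        right; right; right; right; right; right; left
        exact eq_of_entries_h285 _ _ (-1) (-1) 1 0 (by rw [c00, hd]) (by rw [c01, hc])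
          (by rw [c10, hb]; rfl) (by rw [c11, ha]) (by decide)
      · -- S
        left
        right; right; left
        exact eq_of_entries_h285 g _ 0 (-1) 1 0 ha hb hc hd (by decide)
      · -- (0,-1,1,1) = ST
        left
        right; right; right; right; left
        exact eq_of_entries_h285 g _ 0 (-1) 1 1 ha hb hc hd (by decide)
    · rw [abs_le] at ha
      obtain ⟨ha1, ha2⟩ := ha
      have ha' : g 0 0 = -1 ∨ g 0 0 = 0 ∨ g 0 0 = 1 := by omega
      rcases ha' with ha | ha | ha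
      · -- (-1,-1,1,0) = (ST)^2
        left
        right; right; right; right; right; right; left
        exact eq_of_entries_h285 g _ (-1) (-1) 1 0 ha hb hc hd (by decide)
      · left
        right; right; left
        exact eq_of_entries_h285 g _ 0 (-1) 1 0 ha hb hc hd (by decide)
      · -- (1,-1,1,0): conj = (0,-1,1,1) = ST
        right
        right; right; right; right; left
        exact eq_of_entries_h285 _ _ 0 (-1) 1 1 (by rw [c00, hd]) (by rw [c01, hc])
          (by rw [c10, hb]; rfl) (by rw [c11, ha]) (by decide)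

/-- Arithmetic core of the terminal step. -/
theorem terminal_arith_h285 (a b c d : ℤ) (hdet : a * d - b * c = 1) (ht : |a + d| ≤ 1)
    (he : |d - a| ≤ |c|) (hcb : |c| ≤ |b|) :
    b * c = -1 ∧ ((a = 0 ∧ |d| ≤ 1) ∨ (d = 0 ∧ |a| ≤ 1)) := by
  have hid : (d - a) ^ 2 + 4 * (b * c) = (a + d) ^ 2 - 4 := by
    have : a * d = 1 + b * c := by linarith
    nlinarith
  have ht2 : (a + d) ^ 2 ≤ 1 := by
    have := abs_le.mp ht
    nlinarith
  have he2 : (d - a) ^ 2 ≤ c ^ 2 := sq_le_sq.mpr he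
  have hneg : b * c < 0 := by nlinarith [sq_nonneg (d - a)]
  have hc2 : c ^ 2 ≤ -(b * c) := by
    have h1 : |c| * |c| ≤ |b| * |c| := mul_le_mul_of_nonneg_right hcb (abs_nonneg c)
    have h2 : |b| * |c| = -(b * c) := by
      rw [← abs_mul, abs_of_neg hneg]
    have h3 : |c| * |c| = c ^ 2 := by rw [abs_mul_abs_self]; ring
    linarith
  have hbc : b * c = -1 := by
    have h1 : -(4 : ℤ) ≤ 3 * (b * c) := by nlinarith
    omega
  refine ⟨hbc, ?_⟩
  have hsq : (d - a) ^ 2 = (a + d) ^ 2 := by rw [hbc] at hid; linarith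
  have hfac : (d - a - (a + d)) * (d - a + (a + d)) = 0 := by nlinarith
  rcases mul_eq_zero.mp hfac with h | h
  · left
    have ha : a = 0 := by omega
    refine ⟨ha, ?_⟩
    rw [ha] at ht
    simpa using ht
  · right
    have hd : d = 0 := by omega
    refine ⟨hd, ?_⟩
    rw [hd] at ht
    simpa using ht

theorem reduce_h285 (N : ℕ) : ∀ g : SL(2, ℤ), (g 1 0).natAbs ≤ N →
    |(g : Matrix (Fin 2) (Fin 2) ℤ).trace| ≤ 1 → ∃ h : SL(2, ℤ), InList_h285 (h * g * h⁻¹) := by
  induction N with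
  | zero =>
    intro g hN ht
    exfalso
    have hc : g 1 0 = 0 := by omega
    have hdet := det_entries_h285 g
    rw [hc, mul_zero, sub_zero] at hdet
    rw [trace_entries_h285] at ht
    rcases Int.mul_eq_one_iff_eq_one_or_neg_one.mp hdet with ⟨h1, h2⟩ | ⟨h1, h2⟩
    · rw [h1, h2] at ht; norm_num at ht
    · rw [h1, h2] at ht; norm_num at ht
  | succ N ih =>
    intro g hN ht
    by_cases hlt : (g 1 0).natAbs ≤ N
    · exact ih g hlt ht
    have hdet := det_entries_h285 g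
    have htr := trace_entries_h285 g
    have hc0 : g 1 0 ≠ 0 := by
      intro h
      rw [h] at hlt
      simp at hlt
    obtain ⟨n, hn⟩ := exists_near_h285 (g 1 1 - g 0 0) (g 1 0) hc0
    obtain ⟨e00, e01, e10, e11⟩ := conjT_entries_h285 g n
    set g₁ := T ^ n * g * (T ^ n)⁻¹ with hg₁
    have hdet₁ := det_entries_h285 g₁
    have htr₁ : (g₁ : Matrix (Fin 2) (Fin 2) ℤ).trace = (g : Matrix (Fin 2) (Fin 2) ℤ).trace := by
      rw [trace_entries_h285, trace_entries_h285, e00, e11]; ring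
    have he₁ : |g₁ 1 1 - g₁ 0 0| ≤ |g₁ 1 0| := by
      rw [e00, e11, e10]
      have : g 1 1 - n * g 1 0 - (g 0 0 + n * g 1 0) = g 1 1 - g 0 0 - 2 * n * g 1 0 := by ring
      rw [this]; exact hn
    by_cases hb : |g₁ 0 1| < |g₁ 1 0|
    · -- descend
      obtain ⟨c00, c01, c10, c11⟩ := conjS_entries_h285 g₁
      set g₂ := S * g₁ * S⁻¹ with hg₂
      have hN₂ : (g₂ 1 0).natAbs ≤ N := by
        rw [c10, Int.natAbs_neg]
        rw [e10] at hb
        have h1 : ((g₁ 0 1).natAbs : ℤ) < ((g 1 0).natAbs : ℤ) := by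
          rw [Int.natCast_natAbs, Int.natCast_natAbs]; exact hb
        have h2 : (g₁ 0 1).natAbs < (g 1 0).natAbs := by exact_mod_cast h1
        omega
      have htr₂ : |(g₂ : Matrix (Fin 2) (Fin 2) ℤ).trace| ≤ 1 := by
        rw [trace_entries_h285, c00, c11, add_comm, ← trace_entries_h285, htr₁]; exact ht
      obtain ⟨h₂, hh₂⟩ := ih g₂ hN₂ htr₂
      refine ⟨h₂ * S * T ^ n, ?_⟩
      have : h₂ * S * T ^ n * g * (h₂ * S * T ^ n)⁻¹ = h₂ * g₂ * h₂⁻¹ := by
        rw [hg₂, hg₁]; group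
      rw [this]; exact hh₂
    · -- terminal
      rw [not_lt] at hb
      have ht₁ : |g₁ 0 0 + g₁ 1 1| ≤ 1 := by
        rw [← trace_entries_h285, htr₁]; exact ht
      obtain ⟨hbc, had⟩ := terminal_arith_h285 _ _ _ _ hdet₁ ht₁ he₁ hb
      rcases terminal_h285 g₁ hbc had with h | h
      · exact ⟨T ^ n, h⟩
      · refine ⟨S * T ^ n, ?_⟩
        have : S * T ^ n * g * (S * T ^ n)⁻¹ = S * g₁ * S⁻¹ := by
          rw [hg₁]; group
        rw [this]; exact h

/-- **Leaf TORS of block PD**: every element of finite order of `SL(2, ℤ)` is conjugate to one of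
`± 1, ± S, ± S T, ± (S T)²`. -/
theorem torsionClass : Spec.TorsionClassStatement := by
  intro g hg
  have h2 := abs_trace_le_two_h285 g hg
  by_cases h1 : |(g : Matrix (Fin 2) (Fin 2) ℤ).trace| ≤ 1
  · obtain ⟨h, hh⟩ := reduce_h285 _ g le_rfl h1
    exact ⟨h, hh⟩
  · rw [not_le] at h1
    have h3 : (g : Matrix (Fin 2) (Fin 2) ℤ).trace = 2 ∨
        (g : Matrix (Fin 2) (Fin 2) ℤ).trace = -2 := by
      rcases abs_cases (g : Matrix (Fin 2) (Fin 2) ℤ).trace with ⟨h, _⟩ | ⟨h, _⟩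
      · left; omega
      · right; omega
    rcases h3 with h3 | h3
    · refine ⟨1, Or.inl ?_⟩
      rw [eq_one_of_trace_two_sl_h285 g hg h3]
      simp
    · refine ⟨1, Or.inr (Or.inl ?_)⟩
      rw [eq_neg_one_of_trace_neg_two_sl_h285 g hg h3]
      simp

end Fermat.Agent.S41.H285
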